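/-
S14 package U-B2, linear algebra core (helper39).

* `charpoly_eq_geom_sum`: an endomorphism `g` of a free `ℤ`-module of rank `r` with
  `∑_{i ≤ r} g^i = 0` and a vector `v` such that `v, g v, …, g^(r-1) v` are independent has
  characteristic polynomial `∑_{i ≤ r} X^i`.
* `exists_combination_mem_smul`: if moreover the prime `p` does not divide `r + 1`, then two
  eigenvectors of `g` modulo `p` for the same eigenvalue are dependent modulo `p`.
-/
import Mathlib

set_option autoImplicit false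

namespace Fermat.Agent.S14.H39

open Polynomial Module

/-- `1 + X + ⋯ + X^r` has degree `r`. -/
theorem natDegree_geom_sum_X (R : Type*) [CommRing R] [IsDomain R] (r : ℕ) :
    (∑ i ∈ Finset.range (r + 1), (X : R[X]) ^ i).natDegree = r := by
  have h1 : (∑ i ∈ Finset.range (r + 1), (X : R[X]) ^ i) * (X - 1) = X ^ (r + 1) - 1 :=
    geom_sum_mul X (r + 1)
  have h2 : ((∑ i ∈ Finset.range (r + 1), (X : R[X]) ^ i) * (X - 1)).natDegree = r + 1 := by
    rw [h1, ← C_1, natDegree_X_pow_sub_C]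
  have hm : (∑ i ∈ Finset.range (r + 1), (X : R[X]) ^ i) ≠ 0 :=
    (Polynomial.monic_geom_sum_X (Nat.succ_ne_zero r)).ne_zero
  have hx : (X - 1 : R[X]) ≠ 0 := by
    rw [← C_1]; exact X_sub_C_ne_zero 1
  rw [natDegree_mul hm hx, ← C_1, natDegree_X_sub_C] at h2
  omega

section Charpoly

variable {Λ : Type*} [AddCommGroup Λ] [Module.Free ℤ Λ] [Module.Finite ℤ Λ]

/-- An endomorphism of a free `ℤ`-module of rank `r` which is killed by `1 + X + ⋯ + X^r` and has
a cyclic vector of length `r` has characteristic polynomial `1 + X + ⋯ + X^r`. -/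
theorem charpoly_eq_geom_sum (g : Module.End ℤ Λ) {r : ℕ} (hr : Module.finrank ℤ Λ = r)
    (hg : ∑ i ∈ Finset.range (r + 1), g ^ i = 0) (v : Λ)
    (hv : LinearIndependent ℤ (fun i : Fin r => (g ^ (i : ℕ)) v)) :
    g.charpoly = ∑ i ∈ Finset.range (r + 1), (X : ℤ[X]) ^ i := by
  set Φ : ℤ[X] := ∑ i ∈ Finset.range (r + 1), (X : ℤ[X]) ^ i with hΦ
  have hΦmonic : Φ.Monic := Polynomial.monic_geom_sum_X (Nat.succ_ne_zero r)
  have hΦdeg : Φ.natDegree = r := natDegree_geom_sum_X ℤ r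
  have hcmonic : g.charpoly.Monic := LinearMap.charpoly_monic g
  have hcdeg : g.charpoly.natDegree = r := by rw [LinearMap.charpoly_natDegree, hr]
  by_contra hne
  have hd0 : g.charpoly - Φ ≠ 0 := sub_ne_zero.mpr hne
  have hdeg : (g.charpoly - Φ).degree < g.charpoly.degree :=
    Polynomial.degree_sub_lt_left
      (by rw [Polynomial.degree_eq_natDegree hcmonic.ne_zero,
        Polynomial.degree_eq_natDegree hΦmonic.ne_zero, hcdeg, hΦdeg])
      hcmonic.ne_zero (by rw [hcmonic.leadingCoeff, hΦmonic.leadingCoeff])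
  have hnat : (g.charpoly - Φ).natDegree < r := by
    rw [Polynomial.degree_eq_natDegree hcmonic.ne_zero, hcdeg,
      Polynomial.degree_eq_natDegree hd0] at hdeg
    exact_mod_cast hdeg
  have hΦg : aeval g Φ = 0 := by
    rw [hΦ, map_sum]
    simpa using hg
  have hdg : aeval g (g.charpoly - Φ) = 0 := by
    rw [map_sub, LinearMap.aeval_self_charpoly, hΦg, sub_zero]
  have hsum : ∑ i : Fin r, (g.charpoly - Φ).coeff (i : ℕ) • (g ^ (i : ℕ)) v = 0 := by
    have h1 := congrArg (fun f : Module.End ℤ Λ => f v) hdg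
    rw [Polynomial.aeval_eq_sum_range' hnat] at h1
    simp only [LinearMap.sum_apply, LinearMap.smul_apply, LinearMap.zero_apply] at h1
    rw [← h1, Finset.sum_range]
  have hcoeff := Fintype.linearIndependent_iff.mp hv _ hsum
  apply hd0
  ext i
  by_cases hi : i < r
  · simpa using hcoeff ⟨i, hi⟩
  · rw [Polynomial.coeff_eq_zero_of_natDegree_lt (lt_of_lt_of_le hnat (not_lt.mp hi))]
    simp

end Charpoly

section ModP

variable {Λ : Type*} [AddCommGroup Λ] [Module.Free ℤ Λ] [Module.Finite ℤ Λ]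

open TensorProduct

/-- An element of a free `ℤ`-module whose image in `ZMod p ⊗ Λ` vanishes is divisible by `p`. -/
theorem exists_eq_smul_of_tmul_eq_zero (p : ℕ) (w : Λ)
    (hw : (1 : ZMod p) ⊗ₜ[ℤ] w = 0) : ∃ z : Λ, w = (p : ℤ) • z := by
  classical
  let b := Module.Free.chooseBasis ℤ Λ
  have hdiv : ∀ i, (p : ℤ) ∣ b.repr w i := by
    intro i
    have h1 := congrArg (fun t => (b.baseChange (ZMod p)).repr t i) hw
    simp only [Basis.baseChange_repr_tmul, map_zero, Finsupp.zero_apply] at h1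
    rw [zsmul_eq_mul, mul_one] at h1
    exact (ZMod.intCast_zmod_eq_zero_iff_dvd _ _).mp h1
  refine ⟨∑ i, (b.repr w i / (p : ℤ)) • b i, ?_⟩
  rw [Finset.smul_sum]
  conv_lhs => rw [← b.sum_repr w]
  refine Finset.sum_congr rfl fun i _ => ?_
  rw [smul_smul, Int.mul_ediv_cancel' (hdiv i)]

/-- Two vectors in a space of dimension at most one are dependent. -/
theorem exists_smul_add_smul_eq_zero {F V : Type*} [Field F] [AddCommGroup V] [Module F V]
    (W : Submodule F V) (hW : Module.finrank F W ≤ 1) [Module.Finite F W] {a b : V}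
    (ha : a ∈ W) (hb : b ∈ W) :
    ∃ s t : F, ¬ (s = 0 ∧ t = 0) ∧ s • a + t • b = 0 := by
  obtain ⟨v, hv⟩ := finrank_le_one_iff.mp hW
  obtain ⟨α, hα⟩ := hv ⟨a, ha⟩
  obtain ⟨β, hβ⟩ := hv ⟨b, hb⟩
  have hα' : α • (v : V) = a := congrArg Subtype.val hα
  have hβ' : β • (v : V) = b := congrArg Subtype.val hβ
  by_cases h0 : α = 0
  · refine ⟨1, 0, by simp, ?_⟩
    rw [← hα', h0]; simp
  · refine ⟨-β, α, fun h => h0 h.2, ?_⟩
    rw [← hα', ← hβ', smul_smul, smul_smul, ← add_smul]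
    have : -β * α + α * β = 0 := by ring
    rw [this, zero_smul]

/-- If `g` has characteristic polynomial `1 + X + ⋯ + X^r` and `p ∤ r + 1`, two eigenvectors of
`g` modulo `p` with the same eigenvalue are dependent modulo `p`. -/
theorem exists_combination_mem_smul (g : Module.End ℤ Λ) {r : ℕ}
    (hc : g.charpoly = ∑ i ∈ Finset.range (r + 1), (X : ℤ[X]) ^ i)
    (p : ℕ) [Fact p.Prime] (hp : ¬ p ∣ r + 1) (c : ℤ) (x y : Λ)
    (hx : ∃ z : Λ, g x - c • x = (p : ℤ) • z) (hy : ∃ z : Λ, g y - c • y = (p : ℤ) • z) :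
    ∃ i j : ℕ, ¬ (p ∣ i ∧ p ∣ j) ∧ ∃ z : Λ, i • x + j • y = (p : ℤ) • z := by
  classical
  let φ : Module.End (ZMod p) (ZMod p ⊗[ℤ] Λ) := g.baseChange (ZMod p)
  let red : Λ →ₗ[ℤ] ZMod p ⊗[ℤ] Λ := TensorProduct.mk ℤ (ZMod p) Λ 1
  have hred : ∀ w, red w = (1 : ZMod p) ⊗ₜ[ℤ] w := fun _ => rfl
  have hφred : ∀ w, φ (red w) = red (g w) := fun w => by
    simp [φ, hred, LinearMap.baseChange_tmul]
  have hredp : ∀ z : Λ, red ((p : ℤ) • z) = 0 := by
    intro z
    rw [hred, TensorProduct.tmul_smul, TensorProduct.smul_tmul']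
    have : ((p : ℤ) • (1 : ZMod p)) = 0 := by simp
    rw [this, TensorProduct.zero_tmul]
  -- eigenvectors
  have heig : ∀ w : Λ, (∃ z : Λ, g w - c • w = (p : ℤ) • z) →
      red w ∈ Module.End.eigenspace φ (c : ZMod p) := by
    rintro w ⟨z, hz⟩
    rw [Module.End.mem_eigenspace_iff, hφred]
    have h1 : g w = c • w + (p : ℤ) • z := by rw [← hz]; abel
    rw [h1, map_add, hredp, add_zero, map_zsmul, Int.cast_smul_eq_zsmul]
  -- the characteristic polynomial is separable
  have hchar : φ.charpoly = ∑ i ∈ Finset.range (r + 1), (X : (ZMod p)[X]) ^ i := by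
    rw [LinearMap.charpoly_baseChange, hc, Polynomial.map_sum]
    simp
  have hsep : φ.charpoly.Separable := by
    have h1 : (X ^ (r + 1) - C (1 : ZMod p)).Separable := by
      refine Polynomial.separable_X_pow_sub_C 1 ?_ one_ne_zero
      rwa [Ne, ZMod.natCast_eq_zero_iff]
    refine h1.of_dvd ?_
    rw [hchar, C_1]
    exact ⟨X - 1, (geom_sum_mul X (r + 1)).symm⟩
  have hfin : Module.finrank (ZMod p) (Module.End.eigenspace φ (c : ZMod p)) ≤ 1 :=
    (LinearMap.finrank_eigenspace_le φ (c : ZMod p)).trans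
      (Polynomial.rootMultiplicity_le_one_of_separable hsep _)
  obtain ⟨s, t, hst, hsum⟩ := exists_smul_add_smul_eq_zero _ hfin (heig x hx) (heig y hy)
  refine ⟨s.val, t.val, ?_, ?_⟩
  · rintro ⟨h1, h2⟩
    apply hst
    constructor
    · rw [← ZMod.natCast_zmod_val s]; exact (ZMod.natCast_eq_zero_iff _ _).mpr h1
    · rw [← ZMod.natCast_zmod_val t]; exact (ZMod.natCast_eq_zero_iff _ _).mpr h2
  · apply exists_eq_smul_of_tmul_eq_zero p
    rw [← hred, map_add, map_nsmul, map_nsmul, ← Nat.cast_smul_eq_nsmul (ZMod p),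
      ← Nat.cast_smul_eq_nsmul (ZMod p), ZMod.natCast_zmod_val, ZMod.natCast_zmod_val]
    exact hsum

end ModP

end Fermat.Agent.S14.H39
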