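/-
S14 package U-B2, number field part (helper39), for an arbitrary number field `K`.

* `unitsMap σ`, `quotMap σ`: the action of `σ : K ≃ₐ[ℚ] K` on the units and on
  `Λ = Additive ((𝓞 K)ˣ ⧸ torsion K)`.
* `linearIndependent_of_log_neg`: a family of units `u w` (`w ≠ w₀`) such that `u w` is small at
  every infinite place different from `w` is `ℤ`-independent modulo torsion.
-/
import Mathlib

set_option autoImplicit false
-- needed to elaborate `Module ℤ (Additive ((𝓞 K)ˣ ⧸ torsion K))` outside Mathlib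
set_option maxSynthPendingDepth 2

namespace Fermat.Agent.S14.H39

open NumberField NumberField.Units NumberField.InfinitePlace
  NumberField.Units.dirichletUnitTheorem

variable {K : Type*} [Field K] [NumberField K]

/-- The action of a field automorphism on the units of the ring of integers. -/
noncomputable def unitsMap (σ : K ≃ₐ[ℚ] K) : (𝓞 K)ˣ →* (𝓞 K)ˣ :=
  Units.map ((RingOfIntegers.mapRingEquiv (σ : K ≃+* K) : 𝓞 K →+* 𝓞 K) : 𝓞 K →* 𝓞 K)

@[simp]
theorem coe_unitsMap (σ : K ≃ₐ[ℚ] K) (u : (𝓞 K)ˣ) :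
    ((unitsMap σ u : (𝓞 K)ˣ) : K) = σ (u : K) := rfl

theorem unitsMap_one (u : (𝓞 K)ˣ) : unitsMap (1 : K ≃ₐ[ℚ] K) u = u := by
  apply Units.ext
  apply RingOfIntegers.ext
  rfl

theorem unitsMap_mul (σ τ : K ≃ₐ[ℚ] K) (u : (𝓞 K)ˣ) :
    unitsMap (σ * τ) u = unitsMap σ (unitsMap τ u) := by
  apply Units.ext
  apply RingOfIntegers.ext
  rfl

theorem unitsMap_mem_torsion (σ : K ≃ₐ[ℚ] K) {u : (𝓞 K)ˣ} (hu : u ∈ torsion K) :
    unitsMap σ u ∈ torsion K := by
  rw [torsion, CommGroup.mem_torsion] at hu ⊢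
  exact (unitsMap σ).isOfFinOrder hu

/-- The class of a unit in `Λ = Additive ((𝓞 K)ˣ ⧸ torsion K)`. -/
def cls (u : (𝓞 K)ˣ) : Additive ((𝓞 K)ˣ ⧸ torsion K) :=
  Additive.ofMul (QuotientGroup.mk u)

theorem cls_surjective : Function.Surjective (cls : (𝓞 K)ˣ → Additive ((𝓞 K)ˣ ⧸ torsion K)) := by
  intro x
  obtain ⟨u, hu⟩ := QuotientGroup.mk_surjective (Additive.toMul x)
  exact ⟨u, by rw [cls, hu]; rfl⟩

theorem cls_mul (u v : (𝓞 K)ˣ) : cls (u * v) = cls u + cls v := rfl

theorem cls_one : cls (1 : (𝓞 K)ˣ) = 0 := rfl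

theorem cls_pow (u : (𝓞 K)ˣ) (n : ℕ) : cls (u ^ n) = n • cls u := rfl

theorem cls_inv (u : (𝓞 K)ˣ) : cls u⁻¹ = - cls u := rfl

theorem cls_prod {ι : Type*} (s : Finset ι) (f : ι → (𝓞 K)ˣ) :
    cls (∏ i ∈ s, f i) = ∑ i ∈ s, cls (f i) := by
  classical
  induction s using Finset.induction_on with
  | empty => simp [cls_one]
  | insert a s ha ih => rw [Finset.prod_insert ha, Finset.sum_insert ha, cls_mul, ih]

theorem cls_eq_zero_iff {u : (𝓞 K)ˣ} : cls u = 0 ↔ u ∈ torsion K := by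
  rw [cls, ← ofMul_one, Additive.ofMul.injective.eq_iff, QuotientGroup.eq_one_iff]

/-- The endomorphism of `Λ` induced by a field automorphism. -/
noncomputable def quotMap (σ : K ≃ₐ[ℚ] K) : Module.End ℤ (Additive ((𝓞 K)ˣ ⧸ torsion K)) :=
  (MonoidHom.toAdditive (QuotientGroup.map (torsion K) (torsion K) (unitsMap σ)
    (fun _ hu => unitsMap_mem_torsion σ hu))).toIntLinearMap

@[simp]
theorem quotMap_cls (σ : K ≃ₐ[ℚ] K) (u : (𝓞 K)ˣ) : quotMap σ (cls u) = cls (unitsMap σ u) := rfl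

theorem quotMap_one : quotMap (1 : K ≃ₐ[ℚ] K) = 1 := by
  apply LinearMap.ext
  intro x
  obtain ⟨u, rfl⟩ := cls_surjective x
  rw [quotMap_cls, unitsMap_one]; rfl

theorem quotMap_mul (σ τ : K ≃ₐ[ℚ] K) : quotMap (σ * τ) = quotMap σ * quotMap τ := by
  apply LinearMap.ext
  intro x
  obtain ⟨u, rfl⟩ := cls_surjective x
  rw [quotMap_cls, unitsMap_mul]; rfl

theorem quotMap_pow (σ : K ≃ₐ[ℚ] K) (n : ℕ) : quotMap (σ ^ n) = quotMap σ ^ n := by
  induction n with
  | zero => rw [pow_zero, pow_zero, quotMap_one]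
  | succ n ih => rw [pow_succ, pow_succ, quotMap_mul, ih]

theorem quotMap_pow_cls (σ : K ≃ₐ[ℚ] K) (n : ℕ) (u : (𝓞 K)ˣ) :
    (quotMap σ ^ n) (cls u) = cls (unitsMap (σ ^ n) u) := by
  rw [← quotMap_pow, quotMap_cls]

/-- The value of an infinite place at a conjugate of a unit. -/
theorem place_unitsMap (σ : K ≃ₐ[ℚ] K) (u : (𝓞 K)ˣ) (w : InfinitePlace K) :
    w ((unitsMap σ u : (𝓞 K)ˣ) : K) = (σ⁻¹ • w) (u : K) := by
  rw [InfinitePlace.smul_apply, coe_unitsMap]
  rfl

set_option backward.isDefEq.respectTransparency.types false in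
/-- **Minkowski units.** A family of units `u w`, indexed by the infinite places `w ≠ w₀`, such
that `u w` has absolute value `< 1` at every place different from `w`, is independent modulo
torsion. -/
theorem linearIndependent_of_log_neg (u : {w : InfinitePlace K // w ≠ w₀} → (𝓞 K)ˣ)
    (hu : ∀ (w : {w : InfinitePlace K // w ≠ w₀}) (w' : InfinitePlace K), w' ≠ w.1 →
      Real.log (w' (u w : K)) < 0) :
    LinearIndependent ℤ (fun w => cls (u w)) := by
  classical
  let B := Pi.basisFun ℝ {w : InfinitePlace K // w ≠ w₀}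
  let v := fun w : {w : InfinitePlace K // w ≠ w₀} => logEmbedding K (Additive.ofMul (u w))
  have hdet : B.det v ≠ 0 := by
    rw [Module.Basis.det_apply]
    refine det_ne_zero_of_sum_col_lt_diag (fun w => ?_)
    simp_rw [Real.norm_eq_abs, B, Module.Basis.coePiBasisFun.toMatrix_eq_transpose,
      Matrix.transpose_apply]
    rw [← sub_pos, Finset.sum_congr rfl (fun x hx => abs_of_neg ?_), Finset.sum_neg_distrib,
      sub_neg_eq_add, Finset.sum_erase_eq_sub (Finset.mem_univ _), ← add_comm_sub]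
    · refine add_pos_of_nonneg_of_pos ?_ ?_
      · rw [sub_nonneg]
        exact le_abs_self _
      · rw [sum_logEmbedding_component (u w)]
        refine mul_pos_of_neg_of_neg ?_ (hu w _ w.prop.symm)
        rw [mult]; split_ifs <;> norm_num
    · refine mul_neg_of_pos_of_neg ?_ (hu w x ?_)
      · rw [mult]; split_ifs <;> norm_num
      · exact Subtype.ext_iff.not.mp (Finset.ne_of_mem_erase hx)
  have hli : LinearIndependent ℝ v :=
    ((Module.Basis.is_basis_iff_det B).mpr (isUnit_iff_ne_zero.mpr hdet)).1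
  have hliZ : LinearIndependent ℤ v := hli.restrict_scalars' ℤ
  exact LinearIndependent.of_comp (logEmbeddingQuot K).toIntLinearMap hliZ

end Fermat.Agent.S14.H39
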