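/-
S14 package U-B2, cyclotomic part (helper39).

`K = ℚ(ζ_p)`, `p` an odd prime, `g` a generator of `Gal(K/ℚ)`, `n = (p-1)/2`.

* `bijective_pow_smul`: the infinite places of `K` are `g^i • w`, `i < n`.
* `prod_conj_mem_torsion`: `∏_{i<n} g^i(u)` is a root of unity for every unit `u`.
* `exists_cyclic_unit`: a unit `u₀` whose conjugates `g^i(u₀)`, `i < n - 1`, are independent
  modulo torsion.
* `charpoly_quotMap`: the characteristic polynomial of `g` on `(𝓞 K)ˣ / torsion` is
  `1 + X + ⋯ + X^(n-1)`.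
-/
import Fermat.Agent.S14.H39.CharpolyCyclic
import Fermat.Agent.S14.H39.Minkowski

set_option autoImplicit false
set_option maxSynthPendingDepth 2

namespace Fermat.Agent.S14.H39

open NumberField NumberField.Units NumberField.InfinitePlace
  NumberField.Units.dirichletUnitTheorem Polynomial

variable {p : ℕ} [Fact p.Prime] {K : Type*} [Field K] [NumberField K]
  [IsCyclotomicExtension {p} ℚ K]

theorem two_lt_of_ne_two (hp : p ≠ 2) : 2 < p :=
  lt_of_le_of_ne (Fact.out : p.Prime).two_le (Ne.symm hp)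

/-- `ℚ(ζ_p)` has `(p - 1) / 2` infinite places. -/
theorem card_infinitePlace (hp : p ≠ 2) : Fintype.card (InfinitePlace K) = (p - 1) / 2 := by
  have : NeZero p := ⟨(Fact.out : p.Prime).ne_zero⟩
  rw [card_eq_nrRealPlaces_add_nrComplexPlaces,
    IsCyclotomicExtension.Rat.nrRealPlaces_eq_zero K (two_lt_of_ne_two hp), zero_add,
    IsCyclotomicExtension.Rat.nrComplexPlaces_eq_totient_div_two p K,
    Nat.totient_prime (Fact.out : p.Prime)]

/-- All infinite places of `ℚ(ζ_p)` are complex. -/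
theorem mult_eq_two (hp : p ≠ 2) (w : InfinitePlace K) : mult w = 2 := by
  have : NeZero p := ⟨(Fact.out : p.Prime).ne_zero⟩
  have : IsTotallyComplex K :=
    IsCyclotomicExtension.Rat.isTotallyComplex K (two_lt_of_ne_two hp)
  exact IsTotallyComplex.mult_eq w

/-- `Gal(ℚ(ζ_p)/ℚ)` has an element of order `p - 1`. -/
theorem exists_gal_generator (p : ℕ) [Fact p.Prime] (K : Type*) [Field K] [NumberField K]
    [IsCyclotomicExtension {p} ℚ K] : ∃ g : K ≃ₐ[ℚ] K, orderOf g = p - 1 := by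
  have : NeZero p := ⟨(Fact.out : p.Prime).ne_zero⟩
  obtain ⟨g₀, hg₀⟩ := IsCyclic.exists_generator (α := (ZMod p)ˣ)
  refine ⟨(IsCyclotomicExtension.Rat.galEquivZMod p K).symm g₀, ?_⟩
  rw [MulEquiv.orderOf_eq, orderOf_eq_card_of_forall_mem_zpowers hg₀, Nat.card_eq_fintype_card,
    ZMod.card_units]

/-- The exponent of a generator on `ζ`. -/
theorem exists_exponent (hp : p ≠ 2) {g : K ≃ₐ[ℚ] K} (hg : orderOf g = p - 1) :
    ∃ a : ℕ, 1 ≤ a ∧ ¬ p ∣ a ∧ ¬ p ∣ a - 1 ∧ ∀ ξ : K, ξ ^ p = 1 → g ξ = ξ ^ a := by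
  have : NeZero p := ⟨(Fact.out : p.Prime).ne_zero⟩
  have h2 := two_lt_of_ne_two hp
  set t := IsCyclotomicExtension.Rat.galEquivZMod p K g with ht
  have hval : ((t.val.val : ℕ) : ZMod p) = t.val := ZMod.natCast_zmod_val _
  have h0 : ¬ p ∣ t.val.val := by
    rw [← ZMod.natCast_eq_zero_iff, hval]
    exact t.ne_zero
  have hpos : 1 ≤ t.val.val := Nat.pos_of_ne_zero fun h => h0 (h ▸ dvd_zero p)
  refine ⟨t.val.val, hpos, h0, ?_, fun ξ hξ =>
    IsCyclotomicExtension.Rat.galEquivZMod_apply_of_pow_eq p K g hξ⟩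
  intro hdvd
  have h1 : (t.val : ZMod p) = 1 := by
    have := (ZMod.natCast_eq_zero_iff (t.val.val - 1) p).mpr hdvd
    rw [Nat.cast_sub hpos, hval, Nat.cast_one, sub_eq_zero] at this
    exact this
  have h3 : t = 1 := Units.ext h1
  have h4 : g = 1 := by
    have := congrArg (IsCyclotomicExtension.Rat.galEquivZMod p K).symm h3
    rwa [ht, MulEquiv.symm_apply_apply, map_one] at this
  rw [h4, orderOf_one] at hg
  omega

/-- The infinite places of `ℚ(ζ_p)` are the `h^i • w`, `i < (p-1)/2`, for an element `h` of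
order `p - 1` of the Galois group. -/
theorem bijective_pow_smul (hp : p ≠ 2) {h : K ≃ₐ[ℚ] K} (hh : orderOf h = p - 1)
    (w : InfinitePlace K) :
    Function.Bijective (fun i : Fin ((p - 1) / 2) => h ^ (i : ℕ) • w) := by
  have h2 := two_lt_of_ne_two hp
  rw [Fintype.bijective_iff_injective_and_card]
  refine ⟨?_, by rw [Fintype.card_fin, card_infinitePlace hp]⟩
  -- key: `h ^ k • w = w` with `k < (p-1)/2` forces `k = 0`
  have key : ∀ k : ℕ, k < (p - 1) / 2 → h ^ k • w = w → k = 0 := by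
    intro k hk hkw
    have hmem : h ^ k ∈ MulAction.stabilizer (K ≃ₐ[ℚ] K) w := hkw
    have hsq : (h ^ k) ^ 2 = 1 := by
      have hc := InfinitePlace.nat_card_stabilizer_eq_one_or_two ℚ w
      have hpow : (⟨h ^ k, hmem⟩ : MulAction.stabilizer (K ≃ₐ[ℚ] K) w) ^
          Nat.card (MulAction.stabilizer (K ≃ₐ[ℚ] K) w) = 1 := pow_card_eq_one'
      rcases hc with hc | hc
      · rw [hc, pow_one] at hpow
        have : h ^ k = 1 := congrArg Subtype.val hpow
        rw [this, one_pow]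
      · rw [hc] at hpow
        exact congrArg Subtype.val hpow
    rw [← pow_mul] at hsq
    have hdvd := orderOf_dvd_of_pow_eq_one hsq
    rw [hh] at hdvd
    have hlt : k * 2 < p - 1 := by omega
    have := Nat.eq_zero_of_dvd_of_lt hdvd hlt
    omega
  intro i j hij
  simp only at hij
  apply Fin.ext
  rcases le_total (i : ℕ) (j : ℕ) with hle | hle
  · have : h ^ ((j : ℕ) - (i : ℕ)) • w = w := by
      have h1 : h ^ (j : ℕ) = h ^ (i : ℕ) * h ^ ((j : ℕ) - (i : ℕ)) := by
        rw [← pow_add, Nat.add_sub_cancel' hle]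
      rw [h1, mul_smul] at hij
      exact (smul_left_cancel _ hij).symm
    have := key _ (by omega) this
    omega
  · have : h ^ ((i : ℕ) - (j : ℕ)) • w = w := by
      have h1 : h ^ (i : ℕ) = h ^ (j : ℕ) * h ^ ((i : ℕ) - (j : ℕ)) := by
        rw [← pow_add, Nat.add_sub_cancel' hle]
      rw [h1, mul_smul] at hij
      exact smul_left_cancel _ hij
    have := key _ (by omega) this
    omega

/-- The product of all infinite absolute values of a unit is `1` (all places are complex). -/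
theorem prod_place_unit (hp : p ≠ 2) (u : (𝓞 K)ˣ) :
    ∏ w : InfinitePlace K, w (u : K) = 1 := by
  have h1 : (∏ w : InfinitePlace K, w (u : K)) ^ 2 = 1 := by
    rw [← Finset.prod_pow]
    have h2 := InfinitePlace.prod_eq_abs_norm (u : K)
    rw [NumberField.Units.norm, Rat.cast_one] at h2
    rw [← h2]
    refine Finset.prod_congr rfl fun w _ => ?_
    rw [mult_eq_two hp w]
  have h0 : 0 ≤ ∏ w : InfinitePlace K, w (u : K) :=
    Finset.prod_nonneg fun w _ => apply_nonneg _ _
  exact (pow_eq_one_iff_of_nonneg h0 two_ne_zero).mp h1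

/-- **Norm relation.** For a generator `g` of the Galois group and every unit `u`, the product
`∏_{i < (p-1)/2} g^i(u)` is a root of unity. -/
theorem prod_conj_mem_torsion (hp : p ≠ 2) {g : K ≃ₐ[ℚ] K} (hg : orderOf g = p - 1)
    (u : (𝓞 K)ˣ) :
    ∏ i ∈ Finset.range ((p - 1) / 2), unitsMap (g ^ i) u ∈ torsion K := by
  rw [mem_torsion]
  intro w
  have hcoe : ((∏ i ∈ Finset.range ((p - 1) / 2), unitsMap (g ^ i) u : (𝓞 K)ˣ) : K) =
      ∏ i ∈ Finset.range ((p - 1) / 2), ((unitsMap (g ^ i) u : (𝓞 K)ˣ) : K) := by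
    rw [Units.coe_prod, map_prod]
  rw [hcoe, map_prod]
  have hginv : orderOf g⁻¹ = p - 1 := by rw [orderOf_inv, hg]
  have hbij := bijective_pow_smul hp hginv w
  calc ∏ i ∈ Finset.range ((p - 1) / 2), w ((unitsMap (g ^ i) u : (𝓞 K)ˣ) : K)
      = ∏ i : Fin ((p - 1) / 2), (g⁻¹ ^ (i : ℕ) • w) (u : K) := by
        rw [Finset.prod_range]
        refine Finset.prod_congr rfl fun i _ => ?_
        rw [place_unitsMap, inv_pow]
    _ = ∏ w' : InfinitePlace K, w' (u : K) :=
        hbij.prod_comp (fun w' : InfinitePlace K => w' (u : K))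
    _ = 1 := prod_place_unit hp u

/-- **Minkowski unit for the conjugates.** There is a unit `u₀` whose conjugates `g^i(u₀)`,
`i < (p-1)/2 - 1`, are independent modulo torsion. -/
theorem exists_cyclic_unit (hp : p ≠ 2) {g : K ≃ₐ[ℚ] K} (hg : orderOf g = p - 1) :
    ∃ u₀ : (𝓞 K)ˣ, LinearIndependent ℤ
      (fun i : Fin ((p - 1) / 2 - 1) => cls (unitsMap (g ^ (i : ℕ)) u₀)) := by
  classical
  have h2 := two_lt_of_ne_two hp
  have hn : 1 ≤ (p - 1) / 2 := by omega
  -- base place chosen so that the last conjugate corresponds to `w₀`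
  set w₁ : InfinitePlace K := (g ^ ((p - 1) / 2 - 1))⁻¹ • w₀ with hw₁
  let e : Fin ((p - 1) / 2) ≃ InfinitePlace K := Equiv.ofBijective _ (bijective_pow_smul hp hg w₁)
  have he : ∀ i : Fin ((p - 1) / 2), e i = g ^ (i : ℕ) • w₁ := fun _ => rfl
  have hlast : e ⟨(p - 1) / 2 - 1, by omega⟩ = w₀ := by
    rw [he, hw₁, smul_inv_smul]
  obtain ⟨u₀, hu₀⟩ := exists_unit K w₁
  refine ⟨u₀, ?_⟩
  let U : {w : InfinitePlace K // w ≠ w₀} → (𝓞 K)ˣ :=
    fun w => unitsMap (g ^ ((e.symm w.1 : Fin ((p - 1) / 2)) : ℕ)) u₀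
  have hU : ∀ (w : {w : InfinitePlace K // w ≠ w₀}) (w' : InfinitePlace K), w' ≠ w.1 →
      Real.log (w' (U w : K)) < 0 := by
    intro w w' hw'
    rw [place_unitsMap]
    apply hu₀
    intro hcontra
    apply hw'
    have h1 : w' = g ^ ((e.symm w.1 : Fin ((p - 1) / 2)) : ℕ) • w₁ := by
      rw [← hcontra, smul_inv_smul]
    rw [h1, ← he, Equiv.apply_symm_apply]
  have hli := linearIndependent_of_log_neg U hU
  let f : Fin ((p - 1) / 2 - 1) → {w : InfinitePlace K // w ≠ w₀} := fun i =>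
    ⟨e ⟨i, by omega⟩, by
      rw [← hlast]
      intro hc
      have := congrArg Fin.val (e.injective hc)
      simp only at this
      omega⟩
  have hf : Function.Injective f := by
    intro i j hij
    have h1 : e ⟨i, by omega⟩ = e ⟨j, by omega⟩ := congrArg Subtype.val hij
    have := congrArg Fin.val (e.injective h1)
    exact Fin.ext this
  have hcomp := hli.comp f hf
  convert hcomp using 2 with i
  simp only [Function.comp_apply, U, f, Equiv.symm_apply_apply]

/-- The characteristic polynomial of a generator `g` of `Gal(ℚ(ζ_p)/ℚ)` acting on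
`(𝓞 K)ˣ / torsion` is `1 + X + ⋯ + X^((p-1)/2 - 1)`. -/
theorem charpoly_quotMap (hp : p ≠ 2) {g : K ≃ₐ[ℚ] K} (hg : orderOf g = p - 1) :
    (quotMap g).charpoly = ∑ i ∈ Finset.range ((p - 1) / 2 - 1 + 1), (X : ℤ[X]) ^ i := by
  have h2 := two_lt_of_ne_two hp
  have hn : (p - 1) / 2 - 1 + 1 = (p - 1) / 2 := by omega
  obtain ⟨u₀, hu₀⟩ := exists_cyclic_unit hp hg
  refine charpoly_eq_geom_sum (quotMap g) ?_ ?_ (cls u₀) ?_
  · rw [finrank_modTorsion, NumberField.Units.rank, card_infinitePlace hp]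
  · apply LinearMap.ext
    intro x
    obtain ⟨u, rfl⟩ := cls_surjective x
    rw [LinearMap.sum_apply, LinearMap.zero_apply, hn]
    simp_rw [quotMap_pow_cls]
    rw [← cls_prod, cls_eq_zero_iff]
    exact prod_conj_mem_torsion hp hg u
  · simp_rw [quotMap_pow_cls]
    exact hu₀

end Fermat.Agent.S14.H39
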