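/-
S14 package U-B2 (helper39): the `ω²`-eigenspace of `E/E^p` has dimension at most one.

`K = ℚ(ζ_p)`, `p` an odd prime, `E = (𝓞 K)ˣ`.  If two units `u, u'` satisfy
`σ u = u^(a²) · v^p` whenever `σ ζ = ζ^a` (with `v ∈ E` depending on `σ`), then `u^i · u'^j` is a
`p`-th power of a unit for some `(i, j)` not both divisible by `p`.
-/
import Fermat.Agent.S14.H39.CyclUnits

set_option autoImplicit false
set_option maxSynthPendingDepth 2

namespace Fermat.Agent.S14.H39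

open NumberField NumberField.Units

section

variable {p : ℕ} [Fact p.Prime] {K : Type*} [Field K] [NumberField K]
  [IsCyclotomicExtension {p} ℚ K]

/-- A root of unity of `ℚ(ζ_p)` has `p`-th power `±1`. -/
theorem pow_eq_one_or_neg_one_of_isOfFinOrder (hp : p ≠ 2) {ζ : K} (hζ : IsPrimitiveRoot ζ p)
    {x : K} (hx : IsOfFinOrder x) : x ^ p = 1 ∨ x ^ p = -1 := by
  have : NeZero p := ⟨(Fact.out : p.Prime).ne_zero⟩
  have hodd : Odd p := (Fact.out : p.Prime).odd_of_ne_two hp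
  obtain ⟨r, -, h | h⟩ := hζ.exists_pow_or_neg_mul_pow_of_isOfFinOrder hodd hx
  · left
    rw [h, ← pow_mul, mul_comm, pow_mul, hζ.pow_eq_one, one_pow]
  · right
    rw [h, hodd.neg_pow, ← pow_mul, mul_comm, pow_mul, hζ.pow_eq_one, one_pow]

/-- A torsion unit of `ℚ(ζ_p)` is `ζ^r` times the `p`-th power of a unit. -/
theorem exists_eq_zeta_pow_mul_pow (hp : p ≠ 2) {ζ : K} (hζ : IsPrimitiveRoot ζ p)
    {t : (𝓞 K)ˣ} (ht : t ∈ torsion K) (w : (𝓞 K)ˣ) :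
    ∃ (r : ℕ) (w₁ : (𝓞 K)ˣ), r < p ∧ ((t * w ^ p : (𝓞 K)ˣ) : K) = ζ ^ r * (w₁ : K) ^ p := by
  have : NeZero p := ⟨(Fact.out : p.Prime).ne_zero⟩
  have hodd : Odd p := (Fact.out : p.Prime).odd_of_ne_two hp
  have hfin : IsOfFinOrder (t : K) := by
    rw [torsion, CommGroup.mem_torsion, isOfFinOrder_iff_pow_eq_one] at ht
    obtain ⟨n, hn, htn⟩ := ht
    rw [isOfFinOrder_iff_pow_eq_one]
    exact ⟨n, hn, by rw [← coe_pow, htn, coe_one]⟩
  obtain ⟨r, hr, h | h⟩ := hζ.exists_pow_or_neg_mul_pow_of_isOfFinOrder hodd hfin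
  · exact ⟨r, w, hr, by rw [coe_mul, coe_pow, h]⟩
  · refine ⟨r, -w, hr, ?_⟩
    have hneg : ((-w : (𝓞 K)ˣ) : K) = -(w : K) := by
      rw [← neg_one_mul, coe_mul, coe_neg_one, neg_one_mul]
    rw [coe_mul, coe_pow, h, hneg, hodd.neg_pow]
    ring

end

/-- **The `ω²`-eigenspace of `E/E^p` is at most one-dimensional.** -/
theorem exists_pow_mul_pow_eq_pow (p : ℕ) [Fact p.Prime] (hp : p ≠ 2) {K : Type*} [Field K]
    [NumberField K] [IsCyclotomicExtension {p} ℚ K] {ζ : K} (hζ : IsPrimitiveRoot ζ p)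
    (u u' : (𝓞 K)ˣ)
    (hu : ∀ (σ : K ≃ₐ[ℚ] K) (a : ℕ), σ ζ = ζ ^ a → ∃ v : (𝓞 K)ˣ,
      σ ((u : 𝓞 K) : K) = ((u : 𝓞 K) : K) ^ (a ^ 2) * ((v : 𝓞 K) : K) ^ p)
    (hu' : ∀ (σ : K ≃ₐ[ℚ] K) (a : ℕ), σ ζ = ζ ^ a → ∃ v : (𝓞 K)ˣ,
      σ ((u' : 𝓞 K) : K) = ((u' : 𝓞 K) : K) ^ (a ^ 2) * ((v : 𝓞 K) : K) ^ p) :
    ∃ (i j : ℕ) (v : (𝓞 K)ˣ), ¬ (p ∣ i ∧ p ∣ j) ∧ u ^ i * u' ^ j = v ^ p := by
  have h2 := two_lt_of_ne_two hp
  have hpprime : p.Prime := Fact.out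
  obtain ⟨g, hg⟩ := exists_gal_generator p K
  obtain ⟨a, ha1, hpa, hpa1, hga⟩ := exists_exponent hp hg
  have hgζ : g ζ = ζ ^ a := hga ζ hζ.pow_eq_one
  obtain ⟨v, hv⟩ := hu g a hgζ
  obtain ⟨v', hv'⟩ := hu' g a hgζ
  -- the eigen-relations, in the group of units
  have hU : unitsMap g u = u ^ (a ^ 2) * v ^ p := by
    apply coe_injective K
    show ((unitsMap g u : (𝓞 K)ˣ) : K) = ((u ^ (a ^ 2) * v ^ p : (𝓞 K)ˣ) : K)
    rw [coe_unitsMap, coe_mul, coe_pow, coe_pow]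
    exact hv
  have hU' : unitsMap g u' = u' ^ (a ^ 2) * v' ^ p := by
    apply coe_injective K
    show ((unitsMap g u' : (𝓞 K)ˣ) : K) = ((u' ^ (a ^ 2) * v' ^ p : (𝓞 K)ˣ) : K)
    rw [coe_unitsMap, coe_mul, coe_pow, coe_pow]
    exact hv'
  -- eigenvectors modulo `p` in `Λ`
  have hx : ∃ z, quotMap g (cls u) - ((a ^ 2 : ℕ) : ℤ) • cls u = (p : ℤ) • z :=
    ⟨cls v, by rw [quotMap_cls, hU, cls_mul, cls_pow, cls_pow, natCast_zsmul, natCast_zsmul]; abel⟩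
  have hy : ∃ z, quotMap g (cls u') - ((a ^ 2 : ℕ) : ℤ) • cls u' = (p : ℤ) • z :=
    ⟨cls v', by
      rw [quotMap_cls, hU', cls_mul, cls_pow, cls_pow, natCast_zsmul, natCast_zsmul]; abel⟩
  have hndvd : ¬ p ∣ (p - 1) / 2 - 1 + 1 :=
    Nat.not_dvd_of_pos_of_lt (by omega) (by omega)
  obtain ⟨i, j, hij, z, hz⟩ := exists_combination_mem_smul (quotMap g) (charpoly_quotMap hp hg)
    p hndvd _ _ _ hx hy
  obtain ⟨w, rfl⟩ := cls_surjective z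
  refine ⟨i, j, ?_⟩
  -- `u^i u'^j = t w^p` with `t` a root of unity
  have ht : u ^ i * u' ^ j * (w ^ p)⁻¹ ∈ torsion K := by
    rw [← cls_eq_zero_iff, cls_mul, cls_mul, cls_pow, cls_pow, cls_inv, cls_pow, hz,
      natCast_zsmul, add_neg_cancel]
  obtain ⟨r, w₁, hr, hw₁⟩ := exists_eq_zeta_pow_mul_pow hp hζ ht w
  rw [inv_mul_cancel_right] at hw₁
  -- the eigen-relation for `y = u^i u'^j`
  have hyK : g ((u ^ i * u' ^ j : (𝓞 K)ˣ) : K) =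
      ((u ^ i * u' ^ j : (𝓞 K)ˣ) : K) ^ (a ^ 2) * ((v ^ i * v' ^ j : (𝓞 K)ˣ) : K) ^ p := by
    have e1 : g (u : K) = (u : K) ^ (a ^ 2) * (v : K) ^ p := hv
    have e2 : g (u' : K) = (u' : K) ^ (a ^ 2) * (v' : K) ^ p := hv'
    rw [coe_mul, coe_pow, coe_pow, coe_mul, coe_pow, coe_pow, map_mul, map_pow, map_pow, e1, e2]
    ring
  rw [hw₁, map_mul, map_pow, map_pow, hgζ] at hyK
  -- `Z = w₁^(a²) V / g(w₁)` is a root of unity
  set V : K := ((v ^ i * v' ^ j : (𝓞 K)ˣ) : K) with hV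
  have hgw : g (w₁ : K) ≠ 0 := (map_ne_zero g).mpr (coe_ne_zero w₁)
  have hζ0 : ζ ≠ 0 := hζ.ne_zero hpprime.ne_zero
  set Z : K := (w₁ : K) ^ (a ^ 2) * V / g (w₁ : K) with hZ
  have hZp : ζ ^ (a * r) = ζ ^ (r * a ^ 2) * Z ^ p := by
    rw [hZ, div_pow, mul_div_assoc', eq_div_iff (pow_ne_zero _ hgw)]
    rw [← pow_mul] at hyK
    rw [hyK]
    ring
  have hZfin : IsOfFinOrder Z := by
    rw [isOfFinOrder_iff_pow_eq_one]
    refine ⟨p * p, Nat.mul_pos hpprime.pos hpprime.pos, ?_⟩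
    have h1 : Z ^ p = ζ ^ (a * r) * (ζ ^ (r * a ^ 2))⁻¹ := by
      rw [hZp]; field_simp
    rw [pow_mul, h1, mul_pow, inv_pow, ← pow_mul, ← pow_mul, mul_comm (a * r) p,
      mul_comm (r * a ^ 2) p, pow_mul, pow_mul ζ p, hζ.pow_eq_one, one_pow, one_pow, inv_one,
      mul_one]
  have hr0 : r = 0 := by
    rcases pow_eq_one_or_neg_one_of_isOfFinOrder hp hζ hZfin with h1 | h1
    · rw [h1, mul_one] at hZp
      have hsplit : r * a ^ 2 = a * r + a * r * (a - 1) := by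
        obtain ⟨b, rfl⟩ : ∃ b, a = b + 1 := ⟨a - 1, by omega⟩
        simp only [Nat.add_sub_cancel]
        ring
      rw [hsplit, pow_add] at hZp
      have h3 : ζ ^ (a * r * (a - 1)) = 1 := by
        have h4 : ζ ^ (a * r) * ζ ^ (a * r * (a - 1)) = ζ ^ (a * r) * 1 := by
          rw [mul_one]; exact hZp.symm
        exact mul_left_cancel₀ (pow_ne_zero _ hζ0) h4
      have hdvd := (hζ.pow_eq_one_iff_dvd _).mp h3
      have h5 : p ∣ r := by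
        rcases (Nat.Prime.dvd_mul hpprime).mp hdvd with h6 | h6
        · rcases (Nat.Prime.dvd_mul hpprime).mp h6 with h7 | h7
          · exact absurd h7 hpa
          · exact h7
        · exact absurd h6 hpa1
      exact Nat.eq_zero_of_dvd_of_lt h5 hr
    · exfalso
      rw [h1] at hZp
      have h3 : (ζ ^ (a * r)) ^ p = (ζ ^ (r * a ^ 2) * -1) ^ p := by rw [hZp]
      have hodd : Odd p := hpprime.odd_of_ne_two hp
      rw [mul_neg_one, hodd.neg_pow, ← pow_mul, ← pow_mul, mul_comm (a * r) p,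
        mul_comm (r * a ^ 2) p, pow_mul, pow_mul ζ p, hζ.pow_eq_one, one_pow, one_pow] at h3
      have : (2 : K) = 0 := by linear_combination h3
      exact two_ne_zero this
  refine ⟨w₁, hij, ?_⟩
  apply coe_injective K
  show ((u ^ i * u' ^ j : (𝓞 K)ˣ) : K) = ((w₁ ^ p : (𝓞 K)ˣ) : K)
  rw [hw₁, hr0, pow_zero, one_mul, coe_pow]

/-- **Unit case, abstract form (B3 glue).** Let `l` be a homomorphism from the units to a group
killed by `p` (e.g. `Multiplicative (ZMod p)`), and `η` an `ω²`-eigen unit with `l η ≠ 1`.  Then every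
`ω²`-eigen unit `u` with `l u = 1` is a `p`-th power. -/
theorem exists_eq_pow_of_eigen (p : ℕ) [Fact p.Prime] (hp : p ≠ 2) {K : Type*} [Field K]
    [NumberField K] [IsCyclotomicExtension {p} ℚ K] {ζ : K} (hζ : IsPrimitiveRoot ζ p)
    {A : Type*} [CommGroup A] (hA : ∀ x : A, x ^ p = 1) (l : (𝓞 K)ˣ →* A)
    (η u : (𝓞 K)ˣ)
    (hη : ∀ (σ : K ≃ₐ[ℚ] K) (a : ℕ), σ ζ = ζ ^ a → ∃ v : (𝓞 K)ˣ,
      σ ((η : 𝓞 K) : K) = ((η : 𝓞 K) : K) ^ (a ^ 2) * ((v : 𝓞 K) : K) ^ p)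
    (hlη : l η ≠ 1)
    (hu : ∀ (σ : K ≃ₐ[ℚ] K) (a : ℕ), σ ζ = ζ ^ a → ∃ v : (𝓞 K)ˣ,
      σ ((u : 𝓞 K) : K) = ((u : 𝓞 K) : K) ^ (a ^ 2) * ((v : 𝓞 K) : K) ^ p)
    (hlu : l u = 1) :
    ∃ v : (𝓞 K)ˣ, u = v ^ p := by
  have hpprime : p.Prime := Fact.out
  obtain ⟨i, j, v, hij, hv⟩ := exists_pow_mul_pow_eq_pow p hp hζ u η hu hη
  -- apply `l`
  have h1 : l η ^ j = 1 := by
    have := congrArg l hv
    rwa [map_mul, map_pow, map_pow, map_pow, hlu, one_pow, one_mul, hA] at this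
  have hj : p ∣ j := by
    have hord : orderOf (l η) = p := by
      have hdvd : orderOf (l η) ∣ p := orderOf_dvd_of_pow_eq_one (hA _)
      rcases (Nat.dvd_prime hpprime).mp hdvd with h | h
      · exact absurd (orderOf_eq_one_iff.mp h) hlη
      · exact h
    rw [← hord]
    exact orderOf_dvd_of_pow_eq_one h1
  have hi : ¬ p ∣ i := fun h => hij ⟨h, hj⟩
  obtain ⟨j', rfl⟩ := hj
  -- `u ^ i` is a `p`-th power
  obtain ⟨W, h2⟩ : ∃ W : (𝓞 K)ˣ, u ^ i = W ^ p :=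
    ⟨v * (η ^ j')⁻¹, by
      rw [mul_pow, ← hv, inv_pow, ← pow_mul, mul_comm j' p, mul_inv_cancel_right]⟩
  -- Bézout
  have hcop : IsCoprime (i : ℤ) (p : ℤ) := by
    rw [Int.isCoprime_iff_gcd_eq_one, Int.gcd_natCast_natCast, Nat.gcd_comm]
    exact (Nat.Prime.coprime_iff_not_dvd hpprime).mpr hi
  obtain ⟨s, t, hst⟩ := hcop
  refine ⟨W ^ s * u ^ t, ?_⟩
  have h3 : u = u ^ (s * (i : ℤ) + t * (p : ℤ)) := by rw [hst, zpow_one]
  have h4 : (W ^ p) ^ s = (W ^ s) ^ p := by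
    rw [← zpow_natCast W p, ← zpow_mul, mul_comm, zpow_mul, zpow_natCast]
  calc u = u ^ (s * (i : ℤ) + t * (p : ℤ)) := h3
    _ = (u ^ i) ^ s * (u ^ t) ^ p := by
        rw [zpow_add, mul_comm s, zpow_mul, zpow_natCast, zpow_mul, zpow_natCast]
    _ = (W ^ s * u ^ t) ^ p := by
        rw [h2, h4, mul_pow]

end Fermat.Agent.S14.H39
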